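import Fermat.Agent.S18.HAUPT.P3
import Fermat.Prelude.Thm_ModularCurve_coeff_jqModC_pow_self
import Fermat.Prelude.Thm_ModularCurve_coeff_jqModC_pow_of_lt

/-!
# S18 / HAUPT, piece 5 (helper7049): the Hauptmoduln in characteristic `ℓ`

All eight statements of the skeleton file `Fermat/Agent/S18/HAUPT/P5.lean`, verbatim, in the namespace
`Fermat.Agent.S18.HAUPT7049`.  The ONLY inputs from piece 3 (through the skeleton) are `hauptT2_jq` and
`hauptT3_jq`; everything else is proved here.

Generic tools proved on the way (no modular input):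
* `irreducible_sub_gen_mul`: for `j` transcendental over a field `K` and coprime `a, b ∈ K[X]`, the polynomial
  `a - j b` is irreducible over `K[j]`;
* `irreducible_pow_sub_gen_mul_pow_add_one`: `X^(r+1) - j X^r + 1` is irreducible over `K(j)`;
* `transcendental_jqModC`: `j` is transcendental over any field.
-/

set_option autoImplicit false

namespace Fermat.Agent.S18.HAUPT7049

open ModularCurve Polynomial

/-! ### Generic algebra -/

section Generic

open IntermediateField
open scoped IntermediateField.algebraAdjoinAdjoin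

variable {K L : Type*} [Field K] [Field L] [Algebra K L]

/-- For `j` transcendental over `K` and coprime `a, b ∈ K[X]`, `b ≠ 0`, the polynomial `a - j b` is
irreducible over `K[j]`. -/
theorem irreducible_sub_gen_mul {j : L} (hj : Transcendental K j) (a b : K[X]) (hb : b ≠ 0)
    (hab : IsCoprime a b) :
    Irreducible (a.map (algebraMap K (Algebra.adjoin K {j}))
      - C (⟨j, Algebra.self_mem_adjoin_singleton K j⟩ : Algebra.adjoin K {j})
        * b.map (algebraMap K (Algebra.adjoin K {j}))) := by
  let e := Polynomial.algEquivOfTranscendental K j hj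
  let φ : K[X][X] := a.map (algebraMap K K[X]) -
    Polynomial.C Polynomial.X * b.map (algebraMap K K[X])
  have φ_map : φ.mapEquiv e.toRingEquiv = (a.map (algebraMap K (Algebra.adjoin K {j}))
      - C (⟨j, Algebra.self_mem_adjoin_singleton K j⟩ : Algebra.adjoin K {j})
        * b.map (algebraMap K (Algebra.adjoin K {j}))) := by
    simp only [algebraMap_eq, map_sub, mapEquiv_apply,
      AlgEquiv.toRingEquiv_toRingHom, algEquivOfTranscendental_coe, Polynomial.map_map, map_mul,
      map_C, RingHom.coe_coe, aeval_X, e, φ]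
    congr 2 <;> ext <;> simp
  rw [← φ_map, MulEquiv.irreducible_iff]
  have : φ = Bivariate.swap
      (Polynomial.C a - Polynomial.X * Polynomial.C b) := by
    rw [map_sub, map_mul, Bivariate.swap_C, Bivariate.swap_C, Bivariate.swap_Y]
    simp only [φ, Polynomial.algebraMap_eq]
  rw [this, MulEquiv.irreducible_iff]
  convert
    irreducible_C_mul_X_add_C (neg_ne_zero.mpr hb)
      ((IsCoprime.neg_right_iff _ _).mpr hab).symm.isRelPrime using 1
  rw [add_comm, X_mul_C, map_neg, neg_mul]
  exact sub_eq_add_neg (Polynomial.C a) (Polynomial.C b * Polynomial.X)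

/-- `X^(r+1) - j X^r + 1` is monic. -/
theorem monic_pow_sub_mul_pow_add_one {R : Type*} [CommRing R] [Nontrivial R] (c : R) (r : ℕ) :
    (X ^ (r + 1) - C c * X ^ r + 1 : R[X]).Monic := by
  have h : (X ^ (r + 1) - C c * X ^ r + 1 : R[X]) = X ^ (r + 1) + (- (C c * X ^ r) + 1) := by ring
  rw [h]
  apply monic_X_pow_add
  refine lt_of_le_of_lt (degree_add_le _ _) (max_lt ?_ ?_)
  · rw [degree_neg]
    refine lt_of_le_of_lt (degree_C_mul_X_pow_le r c) ?_
    exact_mod_cast Nat.lt_succ_self r
  · rw [degree_one]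
    exact_mod_cast Nat.succ_pos r

/-- For `j` transcendental over `K` and `0 < r`, the polynomial `X^(r+1) - j X^r + 1` is irreducible
over `K(j)`. -/
theorem irreducible_pow_sub_gen_mul_pow_add_one {j : L} (hj : Transcendental K j) (r : ℕ) :
    Irreducible (X ^ (r + 1) - C (⟨j, mem_adjoin_simple_self K j⟩ : K⟮j⟯) * X ^ r + 1 : K⟮j⟯[X]) := by
  set g : Algebra.adjoin K {j} := ⟨j, Algebra.self_mem_adjoin_singleton K j⟩ with hg
  have hirr := irreducible_sub_gen_mul hj (X ^ (r + 1) + 1) (X ^ r) (pow_ne_zero r X_ne_zero)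
    ⟨1, -X, by ring⟩
  have hpoly : ((X ^ (r + 1) + 1 : K[X]).map (algebraMap K (Algebra.adjoin K {j}))
      - C g * (X ^ r : K[X]).map (algebraMap K (Algebra.adjoin K {j})))
      = X ^ (r + 1) - C g * X ^ r + 1 := by
    simp only [Polynomial.map_add, Polynomial.map_pow, Polynomial.map_X, Polynomial.map_one]
    ring
  rw [hpoly] at hirr
  have : UniqueFactorizationMonoid (Algebra.adjoin K {j}) := hj.uniqueFactorizationMonoid_adjoin
  have hmonic : (X ^ (r + 1) - C g * X ^ r + 1 : (Algebra.adjoin K {j})[X]).Monic :=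
    monic_pow_sub_mul_pow_add_one g r
  have h2 := (hmonic.irreducible_iff_irreducible_map_fraction_map (K := K⟮j⟯)).mp hirr
  have hmap : (X ^ (r + 1) - C g * X ^ r + 1 : (Algebra.adjoin K {j})[X]).map
      (algebraMap (Algebra.adjoin K {j}) K⟮j⟯)
      = X ^ (r + 1) - C (⟨j, mem_adjoin_simple_self K j⟩ : K⟮j⟯) * X ^ r + 1 := by
    simp only [Polynomial.map_add, Polynomial.map_sub, Polynomial.map_mul, Polynomial.map_pow,
      Polynomial.map_X, Polynomial.map_one, Polynomial.map_C]
    rfl
  rw [hmap] at h2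
  exact h2

end Generic

/-! ### Laurent series generalities -/

theorem algebraMap_laurent_eq_single (K : Type*) [CommRing K] (c : K) :
    algebraMap K (LaurentSeries K) c = HahnSeries.single 0 c := by
  have h1 : algebraMap K (PowerSeries K) c = PowerSeries.C c := by simp
  rw [HahnSeries.algebraMap_apply', h1, HahnSeries.ofPowerSeries_C]
  rfl

/-- `j` is transcendental over any field. -/
theorem transcendental_jqModC (k : Type*) [Field k] : Transcendental k (jqModC k) := by
  rw [transcendental_iff]
  intro p hp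
  by_contra hp0
  set n := p.natDegree with hn
  have hcoeff : (aeval (jqModC k) p).coeff (-(n : ℤ)) = p.coeff n := by
    rw [aeval_def, eval₂_eq_sum_range, HahnSeries.coeff_sum, Finset.sum_eq_single n]
    · rw [algebraMap_laurent_eq_single, HahnSeries.coeff_single_zero_mul,
        coeff_jqModC_pow_self, mul_one]
    · intro i hi hin
      have hilt : i < n := lt_of_le_of_ne (Nat.lt_succ_iff.mp (Finset.mem_range.mp hi)) hin
      rw [algebraMap_laurent_eq_single, HahnSeries.coeff_single_zero_mul,
        coeff_jqModC_pow_of_lt, mul_zero]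
      omega
    · intro hn'
      exact absurd (Finset.self_mem_range_succ n) hn'
  rw [hp] at hcoeff
  simp only [HahnSeries.coeff_zero] at hcoeff
  exact hp0 (leadingCoeff_eq_zero.mp hcoeff.symm)

theorem three_eq_zero_laurent (k : Type*) [Field k] [CharP k 3] : (3 : LaurentSeries k) = 0 := by
  have h : ((3 : ℕ) : k) = 0 := CharP.cast_eq_zero k 3
  have h2 : ((3 : ℕ) : LaurentSeries k) = 0 := by
    rw [← map_natCast (algebraMap k (LaurentSeries k)), h, map_zero]
  exact_mod_cast h2

theorem two_eq_zero_laurent (k : Type*) [Field k] [CharP k 2] : (2 : LaurentSeries k) = 0 := by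
  have h : ((2 : ℕ) : k) = 0 := CharP.cast_eq_zero k 2
  have h2 : ((2 : ℕ) : LaurentSeries k) = 0 := by
    rw [← map_natCast (algebraMap k (LaurentSeries k)), h, map_zero]
  exact_mod_cast h2

/-! ### Piece 5 -/

theorem hauptT2_char3 (k : Type*) [Field k] [CharP k 3] :
    jqModC k * hauptT2 k ^ 2 = (hauptT2 k + 1) ^ 3 := by
  rw [hauptT2_jq k]
  have h3 := three_eq_zero_laurent k
  have e : (256 : LaurentSeries k) = 1 := by linear_combination 85 * h3
  rw [e]

theorem hauptT3_char2 (k : Type*) [Field k] [CharP k 2] :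
    jqModC k * hauptT3 k ^ 3 = (hauptT3 k + 1) ^ 4 := by
  rw [hauptT3_jq k]
  have h2 := two_eq_zero_laurent k
  have e1 : (27 : LaurentSeries k) = 1 := by linear_combination 13 * h2
  have e2 : (243 : LaurentSeries k) = 1 := by linear_combination 121 * h2
  rw [e1, e2]
  ring

/-- `tbar³ - jbar tbar² + 1 = 0`. -/
theorem hauptT2_root_char3 (k : Type*) [Field k] [CharP k 3] :
    hauptT2 k ^ 3 - jqModC k * hauptT2 k ^ 2 + 1 = 0 := by
  have h := hauptT2_char3 k
  have h3 := three_eq_zero_laurent k
  linear_combination -h - (hauptT2 k ^ 2 + hauptT2 k) * h3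

/-- `tbar⁴ - jbar tbar³ + 1 = 0`. -/
theorem hauptT3_root_char2 (k : Type*) [Field k] [CharP k 2] :
    hauptT3 k ^ 4 - jqModC k * hauptT3 k ^ 3 + 1 = 0 := by
  have h := hauptT3_char2 k
  have h2 := two_eq_zero_laurent k
  linear_combination -h - (2 * hauptT3 k ^ 3 + 3 * hauptT3 k ^ 2 + 2 * hauptT3 k) * h2

theorem hauptT2_inv_char3 (k : Type*) [Field k] [CharP k 3] :
    (hauptT2 k)⁻¹ = hauptT2 k * (jqModC k - hauptT2 k) := by
  have h := hauptT2_root_char3 k
  have hmul : hauptT2 k * (hauptT2 k * (jqModC k - hauptT2 k)) = 1 := by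
    linear_combination -h
  exact inv_eq_of_mul_eq_one_right hmul

theorem hauptT3_inv_char2 (k : Type*) [Field k] [CharP k 2] :
    (hauptT3 k)⁻¹ = hauptT3 k ^ 2 * (jqModC k - hauptT3 k) := by
  have h := hauptT3_root_char2 k
  have hmul : hauptT3 k * (hauptT3 k ^ 2 * (jqModC k - hauptT3 k)) = 1 := by
    linear_combination -h
  exact inv_eq_of_mul_eq_one_right hmul

/-- `k[tbar, 1/tbar] = k[jbar, tbar]`  (`ℓ = 3`, `r = 2`). -/
theorem haupt_adjoin_char3 (k : Type*) [Field k] [CharP k 3] :
    Algebra.adjoin k {hauptT2 k, (hauptT2 k)⁻¹} = Algebra.adjoin k {jqModC k, hauptT2 k} := by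
  have hne : hauptT2 k ≠ 0 := by
    intro h0
    have h := hauptT2_root_char3 k
    rw [h0] at h
    simp at h
  apply le_antisymm
  · apply Algebra.adjoin_le
    rintro x (rfl | rfl)
    · exact Algebra.subset_adjoin (by simp)
    · rw [hauptT2_inv_char3]
      exact mul_mem (Algebra.subset_adjoin (by simp))
        (sub_mem (Algebra.subset_adjoin (by simp)) (Algebra.subset_adjoin (by simp)))
  · apply Algebra.adjoin_le
    rintro x (rfl | rfl)
    · have hj : jqModC k = (hauptT2 k + 1) ^ 3 * ((hauptT2 k)⁻¹) ^ 2 := by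
        rw [← hauptT2_char3 k]
        field_simp
      rw [hj]
      exact mul_mem (pow_mem (add_mem (Algebra.subset_adjoin (by simp)) (one_mem _)) 3)
        (pow_mem (Algebra.subset_adjoin (by simp)) 2)
    · exact Algebra.subset_adjoin (by simp)

/-- `k[tbar, 1/tbar] = k[jbar, tbar]`  (`ℓ = 2`, `r = 3`). -/
theorem haupt_adjoin_char2 (k : Type*) [Field k] [CharP k 2] :
    Algebra.adjoin k {hauptT3 k, (hauptT3 k)⁻¹} = Algebra.adjoin k {jqModC k, hauptT3 k} := by
  have hne : hauptT3 k ≠ 0 := by
    intro h0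
    have h := hauptT3_root_char2 k
    rw [h0] at h
    simp at h
  apply le_antisymm
  · apply Algebra.adjoin_le
    rintro x (rfl | rfl)
    · exact Algebra.subset_adjoin (by simp)
    · rw [hauptT3_inv_char2]
      exact mul_mem (pow_mem (Algebra.subset_adjoin (by simp)) 2)
        (sub_mem (Algebra.subset_adjoin (by simp)) (Algebra.subset_adjoin (by simp)))
  · apply Algebra.adjoin_le
    rintro x (rfl | rfl)
    · have hj : jqModC k = (hauptT3 k + 1) ^ 4 * ((hauptT3 k)⁻¹) ^ 3 := by
        rw [← hauptT3_char2 k]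
        field_simp
      rw [hj]
      exact mul_mem (pow_mem (add_mem (Algebra.subset_adjoin (by simp)) (one_mem _)) 4)
        (pow_mem (Algebra.subset_adjoin (by simp)) 3)
    · exact Algebra.subset_adjoin (by simp)

/-- `tbar` is a root of `f = T³ - jbar T² + 1` over `k[jbar]`, and `f'(tbar) = jbar · tbar`. -/
theorem haupt_minpoly_char3 (k : Type*) [Field k] [CharP k 3] :
    minpoly (IntermediateField.adjoin k {jqModC k}) (hauptT2 k)
      = X ^ 3 - C (⟨jqModC k, IntermediateField.mem_adjoin_simple_self k _⟩ :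
          IntermediateField.adjoin k {jqModC k}) * X ^ 2 + 1 := by
  symm
  apply minpoly.eq_of_irreducible_of_monic
  · exact irreducible_pow_sub_gen_mul_pow_add_one (transcendental_jqModC k) 2
  · simp only [map_add, map_sub, map_mul, map_pow, aeval_X, aeval_C, map_one]
    exact hauptT2_root_char3 k
  · exact monic_pow_sub_mul_pow_add_one _ 2

/-- `tbar` is a root of `f = T⁴ - jbar T³ + 1` over `k[jbar]`, and `f'(tbar) = jbar · tbar²`. -/
theorem haupt_minpoly_char2 (k : Type*) [Field k] [CharP k 2] :
    minpoly (IntermediateField.adjoin k {jqModC k}) (hauptT3 k)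
      = X ^ 4 - C (⟨jqModC k, IntermediateField.mem_adjoin_simple_self k _⟩ :
          IntermediateField.adjoin k {jqModC k}) * X ^ 3 + 1 := by
  symm
  apply minpoly.eq_of_irreducible_of_monic
  · exact irreducible_pow_sub_gen_mul_pow_add_one (transcendental_jqModC k) 3
  · simp only [map_add, map_sub, map_mul, map_pow, aeval_X, aeval_C, map_one]
    exact hauptT3_root_char2 k
  · exact monic_pow_sub_mul_pow_add_one _ 3

end Fermat.Agent.S18.HAUPT7049
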